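import Mathlib

/-!
# FF2 / ChartS : Galois descent for spans of fixed vectors

`Ω` a field with a group `G` acting by ring automorphisms with fixed field `K`;
`M` an `Ω`-vector space with a family of `σ`-semilinear additive maps `T σ`.
* `linearIndependent_of_fixed` : `K`-linearly independent `T`-fixed vectors are `Ω`-linearly
  independent.
* `mem_span_of_fixed` : a `T`-fixed vector in the `Ω`-span of a set `S` of `T`-fixed vectors lies in
  the `K`-span of `S`.
-/

namespace Fermat.Agent.FF2.ChartS

section Descent

variable {K Ω G M : Type*} [Field K] [Field Ω] [Algebra K Ω]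
  [Group G] [MulSemiringAction G Ω]
  [AddCommGroup M] [Module Ω M] [Module K M] [IsScalarTower K Ω M]

/-- `K`-linearly independent fixed vectors are `Ω`-linearly independent. -/
theorem linearIndependent_of_fixed
    (hfix : ∀ x : Ω, (∀ σ : G, σ • x = x) → x ∈ (algebraMap K Ω).range)
    (T : G → M →+ M) (hT : ∀ (σ : G) (ω : Ω) (m : M), T σ (ω • m) = (σ • ω) • T σ m)
    {ι : Type*} (b : ι → M) (hb : ∀ i σ, T σ (b i) = b i)
    (hli : LinearIndependent K b) : LinearIndependent Ω b := by
  classical
  rw [linearIndependent_iff']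
  intro t
  induction t using Finset.strongInduction with
  | H t ih =>
    intro c hc i hi
    by_contra hci
    set d : ι → Ω := fun j => (c i)⁻¹ * c j with hd
    have hdi : d i = 1 := inv_mul_cancel₀ hci
    have hd0 : ∑ j ∈ t, d j • b j = 0 := by
      have h1 : ∑ j ∈ t, d j • b j = (c i)⁻¹ • ∑ j ∈ t, c j • b j := by
        rw [Finset.smul_sum]
        exact Finset.sum_congr rfl fun j _ => by rw [smul_smul]
      rw [h1, hc, smul_zero]
    have hfixd : ∀ σ : G, ∀ j ∈ t, σ • d j = d j := by
      intro σ
      have h2 : ∑ j ∈ t, (σ • d j - d j) • b j = 0 := by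
        have h3 := congrArg (T σ) hd0
        rw [map_sum, map_zero] at h3
        have h4 : ∑ j ∈ t, (σ • d j) • b j = 0 := by
          rw [← h3]
          exact Finset.sum_congr rfl fun j _ => by rw [hT, hb]
        simp only [sub_smul, Finset.sum_sub_distrib, h4, hd0, sub_zero]
      have h1 : ∑ j ∈ t.erase i, (σ • d j - d j) • b j = 0 := by
        rw [← Finset.add_sum_erase _ _ hi] at h2
        simpa [hdi] using h2
      have h5 := ih (t.erase i) (Finset.erase_ssubset hi) (fun j => σ • d j - d j) h1
      intro j hj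
      by_cases hji : j = i
      · subst hji; rw [hdi, smul_one]
      · exact sub_eq_zero.mp (h5 j (Finset.mem_erase.mpr ⟨hji, hj⟩))
    have hex : ∀ j, ∃ k : K, j ∈ t → algebraMap K Ω k = d j := by
      intro j
      by_cases hj : j ∈ t
      · obtain ⟨k, hk⟩ := hfix (d j) (fun σ => hfixd σ j hj)
        exact ⟨k, fun _ => hk⟩
      · exact ⟨0, fun h => absurd h hj⟩
    choose k hk using hex
    have hK : ∑ j ∈ t, k j • b j = 0 := by
      rw [← hd0]
      refine Finset.sum_congr rfl fun j hj => ?_
      rw [← hk j hj, algebraMap_smul]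
    have h6 := linearIndependent_iff'.mp hli t k hK i hi
    have h7 : algebraMap K Ω (k i) = 1 := (hk i hi).trans hdi
    rw [h6, map_zero] at h7
    exact zero_ne_one h7

/-- A fixed vector in the `Ω`-span of a set `S` of fixed vectors lies in the `K`-span of `S`. -/
theorem mem_span_of_fixed
    (hfix : ∀ x : Ω, (∀ σ : G, σ • x = x) → x ∈ (algebraMap K Ω).range)
    (T : G → M →+ M) (hT : ∀ (σ : G) (ω : Ω) (m : M), T σ (ω • m) = (σ • ω) • T σ m)
    (S : Set M) (hS : ∀ s ∈ S, ∀ σ, T σ s = s) {m : M}
    (hm : m ∈ Submodule.span Ω S) (hmfix : ∀ σ, T σ m = m) :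
    m ∈ Submodule.span K S := by
  classical
  obtain ⟨b, hbS, hbspan, hbli⟩ := exists_linearIndependent K S
  have hΩli : LinearIndependent Ω (Subtype.val : b → M) :=
    linearIndependent_of_fixed hfix T hT _ (fun i σ => hS _ (hbS i.2) σ) hbli
  have hSb : S ⊆ (Submodule.span Ω b : Set M) := by
    intro s hs
    have h1 : s ∈ Submodule.span K b := by
      rw [hbspan]; exact Submodule.subset_span hs
    exact (Submodule.span_le_restrictScalars K Ω b) h1
  have hmb : m ∈ Submodule.span Ω (Set.range (Subtype.val : b → M)) := by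
    rw [Subtype.range_coe]
    exact (Submodule.span_le.mpr hSb) hm
  obtain ⟨l, hl⟩ := (Finsupp.mem_span_range_iff_exists_finsupp).mp hmb
  -- every coefficient is fixed
  have hcoef : ∀ σ : G, ∀ i ∈ l.support, σ • l i - l i = 0 := by
    intro σ
    have h1 : ∑ i ∈ l.support, (σ • l i - l i) • (i : M) = 0 := by
      have h2 : ∑ i ∈ l.support, l i • (i : M) = m := hl
      have h3 : ∑ i ∈ l.support, (σ • l i) • (i : M) = m := by
        have h4 := congrArg (T σ) h2
        rw [map_sum, hmfix] at h4
        rw [← h4]
        exact Finset.sum_congr rfl fun i _ => by rw [hT, hS _ (hbS i.2)]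
      simp only [sub_smul, Finset.sum_sub_distrib, h2, h3, sub_self]
    exact linearIndependent_iff'.mp hΩli l.support _ h1
  rw [← hl, ← hbspan]
  refine Submodule.sum_mem _ fun i _ => ?_
  by_cases hi : i ∈ l.support
  · obtain ⟨k, hk⟩ := hfix (l i) (fun σ => sub_eq_zero.mp (hcoef σ i hi))
    show l i • (i : M) ∈ Submodule.span K b
    rw [← hk, algebraMap_smul]
    exact Submodule.smul_mem _ _ (Submodule.subset_span i.2)
  · rw [Finsupp.notMem_support_iff] at hi
    show l i • (i : M) ∈ Submodule.span K b
    rw [hi, zero_smul]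
    exact Submodule.zero_mem _

end Descent

end Fermat.Agent.FF2.ChartS
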